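import Mathlib
import Fermat.Agent.H86.SS2.Emb3Defs
import Fermat.Agent.H62.SS.AtkinLehnerModel
import Fermat.Agent.H88.Generation
import Fermat.Agent.H17.HeckeDataComplex

/-!
# P-SS2 row 1040 (SS2-C1-AL2): the Atkin-Lehner involution `W_{q²}` over a number field (helper79)

`al2Exists M' q : Fermat.Agent.H86.SS2.AL2ExistsStatement M' q`.

Route.
* Over `ℚ̄` the Atkin-Lehner automorphism of level `M' (q q)` with its EXPLICIT action on the
  generators `j(t^(d e)) ↦ j(t^(d e'))` (`d ∣ M'`, `e e' = q q`) and involutivity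
  (`exists_atkinLehnerBar_explicit`, from `H41.exists_atkinLehner_abstract` and `H44.core`).
* Descent to `K₁` by helper62's `rat_stable` / `exists_descent`; the level is a variable `N` with
  `N = M' (q q)`, so that the result can be used at `N = M' q q` (`exists_W2_level`).
* The given `Wq` is determined by `IsAtkinLehnerModel` on `j(t)` and `j(t^(M' q))`, which generate
  the model field of level `M' q` (`H88.functionFieldGeneration`); two algebra homomorphisms
  agreeing on these two elements are equal (`ringHom_eq_of_gens`).  No primality of `q` is used.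
-/

set_option autoImplicit false

noncomputable section

namespace Fermat.Agent.H79.SS2

open ModularCurve AlgebraicCurve
open Fermat.Agent.H22.KL Fermat.Agent.H93.KL Fermat.Agent.H82.SS

/-- **Atkin–Lehner over `ℚ̄`** with its explicit action on the generators and involutivity. -/
theorem exists_atkinLehnerBar_explicit (N ℓ : ℕ) [NeZero N] [NeZero ℓ]
    (hcop : Nat.Coprime N ℓ) :
    ∃ W : ↥(modularFunctionFieldBar (N * ℓ)) ≃ₐ[QBar] ↥(modularFunctionFieldBar (N * ℓ)),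
      (∀ (d e e' : ℕ) (_ : NeZero (d * e)) (_ : NeZero (d * e')) (_ : d ∣ N)
        (_ : e * e' = ℓ) (h1 : d * e ∣ N * ℓ) (h2 : d * e' ∣ N * ℓ),
        W (H23.jBarD (N * ℓ) (d * e) h1) = H23.jBarD (N * ℓ) (d * e') h2) ∧
      (∀ z, W (W z) = z) := by
  obtain ⟨ι, Θ, hinj, -, hconst, hjd, hfrac⟩ := H44.core (N * ℓ)
  obtain ⟨W, hW⟩ := H41.exists_atkinLehner_abstract hcop
    (fun d _ hd => H23.jBarD (N * ℓ) d hd) (H23.Rsub (N * ℓ)) rfl Θ ι hinj hconst hjd hfrac
  have hN0 : N ≠ 0 := NeZero.ne N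
  have hℓ0 : ℓ ≠ 0 := NeZero.ne ℓ
  have hgens : ∀ (d' : ℕ) (_ : NeZero d') (hd' : d' ∣ N * ℓ),
      ∃ (d'' : ℕ) (_ : NeZero d'') (hd'' : d'' ∣ N * ℓ),
        W (H23.jBarD (N * ℓ) d' hd') = H23.jBarD (N * ℓ) d'' hd'' ∧
        W (H23.jBarD (N * ℓ) d'' hd'') = H23.jBarD (N * ℓ) d' hd' := by
    intro d' hd0 hd'
    obtain ⟨d, d₁, e, e', hN, hℓ, hde⟩ := H41.exists_dvd_decomp hcop hd'
    subst hde
    have hdN : d ∣ N := ⟨d₁, hN⟩
    have he'0 : d * e' ≠ 0 := by
      intro h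
      rcases Nat.mul_eq_zero.mp h with h | h
      · exact hN0 (by rw [hN, h, zero_mul])
      · exact hℓ0 (by rw [hℓ, h, mul_zero])
    have i2 : NeZero (d * e') := ⟨he'0⟩
    have h2 : d * e' ∣ N * ℓ := by
      rw [hN, hℓ]
      exact Nat.mul_dvd_mul (dvd_mul_right d d₁) (dvd_mul_left e' e)
    refine ⟨d * e', i2, h2, ?_, ?_⟩
    · exact hW d e e' hd0 i2 hdN hℓ.symm hd' h2
    · exact hW d e' e i2 hd0 hdN (by rw [hℓ, mul_comm]) h2 hd'
  have hfracNℓ : ∀ f : ↥(modularFunctionFieldBar (N * ℓ)),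
      ∃ r s : ↥(Algebra.adjoin QBar
        {x | ∃ (d : ℕ) (_ : NeZero d) (hd : d ∣ N * ℓ), x = H23.jBarD (N * ℓ) d hd}),
        s ≠ 0 ∧ f * (s : ↥(modularFunctionFieldBar (N * ℓ))) = r := hfrac
  refine ⟨W, hW, ?_⟩
  refine H41.algHom_eq_of_eqOn_gens _ hfracNℓ
    (W.toAlgHom.comp W.toAlgHom) (AlgHom.id QBar _) ?_
  rintro x ⟨d', hd0, hd', rfl⟩
  obtain ⟨d'', hd0'', hd'', h1, h2⟩ := hgens d' hd0 hd'
  change W (W (H23.jBarD (N * ℓ) d' hd')) = H23.jBarD (N * ℓ) d' hd'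
  rw [h1, h2]

/-- Two ring homomorphisms on the model field which agree on the constants and on the (base
changes of the) generators of `F₀` are equal. -/
theorem ringHom_eq_of_gens {K₁ E : Type} [Field K₁] [Algebra ℚ K₁] [Field E]
    (F₀ : IntermediateField ℚ (LaurentSeries ℚ)) (S : Set (LaurentSeries ℚ))
    (hF₀ : F₀ = IntermediateField.adjoin ℚ S)
    (φ ψ : ↥(laurentBaseChange K₁ F₀) →+* E)
    (hK : ∀ a : K₁, φ (algebraMap K₁ ↥(laurentBaseChange K₁ F₀) a)
      = ψ (algebraMap K₁ ↥(laurentBaseChange K₁ F₀) a))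
    (h : ∀ (x : LaurentSeries ℚ) (_ : x ∈ S) (z : ↥(laurentBaseChange K₁ F₀)),
      (z : LaurentSeries K₁) = coeffEmb K₁ x → φ z = ψ z)
    (f : ↥(laurentBaseChange K₁ F₀)) : φ f = ψ f := by
  -- step 1: the rational elements
  have hrat : ∀ w : ↥F₀, φ (H62.SS.ratK (K₁ := K₁) F₀ w) = ψ (H62.SS.ratK (K₁ := K₁) F₀ w) := by
    intro w
    obtain ⟨w, hw⟩ := w
    have hw' : w ∈ IntermediateField.adjoin ℚ S := hF₀ ▸ hw
    revert hw
    induction hw' using IntermediateField.adjoin_induction with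
    | mem x hx => exact fun h' => h x hx _ rfl
    | algebraMap c =>
      intro h'
      have e2 : H62.SS.ratK (K₁ := K₁) F₀ ⟨algebraMap ℚ (LaurentSeries ℚ) c, h'⟩
          = algebraMap K₁ ↥(laurentBaseChange K₁ F₀) (algebraMap ℚ K₁ c) := by
        apply Subtype.ext
        show coeffEmb K₁ (algebraMap ℚ (LaurentSeries ℚ) c)
          = algebraMap K₁ (LaurentSeries K₁) (algebraMap ℚ K₁ c)
        rw [algebraMap_laurentSeries_eq_single, algebraMap_laurentSeries_eq_single, coeffEmb,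
          coeffMap_single]
      rw [e2, hK]
    | add x y hx hy ihx ihy =>
      intro h'
      have hx' : x ∈ F₀ := hF₀ ▸ hx
      have hy' : y ∈ F₀ := hF₀ ▸ hy
      have e1 : (⟨x + y, h'⟩ : ↥F₀) = ⟨x, hx'⟩ + ⟨y, hy'⟩ := rfl
      rw [e1, map_add, map_add, map_add, ihx hx', ihy hy']
    | inv x hx ihx =>
      intro h'
      have hx' : x ∈ F₀ := hF₀ ▸ hx
      have e1 : (⟨x⁻¹, h'⟩ : ↥F₀) = (⟨x, hx'⟩ : ↥F₀)⁻¹ := rfl
      rw [e1, map_inv₀, map_inv₀, map_inv₀, ihx hx']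
    | mul x y hx hy ihx ihy =>
      intro h'
      have hx' : x ∈ F₀ := hF₀ ▸ hx
      have hy' : y ∈ F₀ := hF₀ ▸ hy
      have e1 : (⟨x * y, h'⟩ : ↥F₀) = ⟨x, hx'⟩ * ⟨y, hy'⟩ := rfl
      rw [e1, map_mul, map_mul, map_mul, ihx hx', ihy hy']
  -- step 2: everything
  obtain ⟨f, hf⟩ := f
  have hf' := mem_laurentBaseChange_iff.mp hf
  revert hf
  induction hf' using Subfield.closure_induction with
  | mem y hy =>
    intro h'
    rcases hy with ⟨a, rfl⟩ | ⟨w, hw, rfl⟩
    · exact hK a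
    · have e1 : (⟨coeffEmb K₁ w, h'⟩ : ↥(laurentBaseChange K₁ F₀))
          = H62.SS.ratK F₀ ⟨w, hw⟩ := rfl
      rw [e1, hrat]
  | one =>
    intro h'
    have e1 : (⟨1, h'⟩ : ↥(laurentBaseChange K₁ F₀)) = 1 := rfl
    rw [e1, map_one, map_one]
  | add x y hx hy ihx ihy =>
    intro h'
    have hx' : x ∈ laurentBaseChange K₁ F₀ := mem_laurentBaseChange_iff.mpr hx
    have hy' : y ∈ laurentBaseChange K₁ F₀ := mem_laurentBaseChange_iff.mpr hy
    have e1 : (⟨x + y, h'⟩ : ↥(laurentBaseChange K₁ F₀)) = ⟨x, hx'⟩ + ⟨y, hy'⟩ := rfl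
    rw [e1, map_add, map_add, ihx hx', ihy hy']
  | neg x hx ihx =>
    intro h'
    have hx' : x ∈ laurentBaseChange K₁ F₀ := mem_laurentBaseChange_iff.mpr hx
    have e1 : (⟨-x, h'⟩ : ↥(laurentBaseChange K₁ F₀)) = -(⟨x, hx'⟩) := rfl
    rw [e1, map_neg, map_neg, ihx hx']
  | inv x hx ihx =>
    intro h'
    have hx' : x ∈ laurentBaseChange K₁ F₀ := mem_laurentBaseChange_iff.mpr hx
    have e1 : (⟨x⁻¹, h'⟩ : ↥(laurentBaseChange K₁ F₀)) = (⟨x, hx'⟩)⁻¹ := rfl
    rw [e1, map_inv₀, map_inv₀, ihx hx']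
  | mul x y hx hy ihx ihy =>
    intro h'
    have hx' : x ∈ laurentBaseChange K₁ F₀ := mem_laurentBaseChange_iff.mpr hx
    have hy' : y ∈ laurentBaseChange K₁ F₀ := mem_laurentBaseChange_iff.mpr hy
    have e1 : (⟨x * y, h'⟩ : ↥(laurentBaseChange K₁ F₀)) = ⟨x, hx'⟩ * ⟨y, hy'⟩ := rfl
    rw [e1, map_mul, map_mul, ihx hx', ihy hy']

/-- The full field of level `N` is generated by `j(t)` and `j(t^N)`. -/
theorem full_eq_adjoin_pair (N : ℕ) [NeZero N] :
    modularFunctionFieldFull N = IntermediateField.adjoin ℚ {jq, qExpand ℚ N jq} := by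
  apply le_antisymm
  · rw [modularFunctionFieldFull, IntermediateField.adjoin_le_iff]
    rintro x ⟨d, hne, hdvd, rfl⟩
    exact Fermat.Agent.H88.functionFieldGeneration Fermat.Agent.H17.hasHeckeData_complex N
      d hdvd hne
  · exact modularFunctionField_le_full N

/-- `q ↦ q^n` commutes with the base change of coefficients. -/
theorem qExpand_coeffEmb (K₁ : Type) [Field K₁] [Algebra ℚ K₁] (n : ℕ) [NeZero n]
    (y : LaurentSeries ℚ) :
    qExpand K₁ n (coeffEmb K₁ y) = coeffEmb K₁ (qExpand ℚ n y) :=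
  (coeffMap_qExpand (algebraMap ℚ K₁) n y).symm

/-- **`W_{q²}` at a level `N = M' (q q)`**, with its action on the generators, in terms of
`q`-expansions. -/
theorem exists_W2_level (M' q : ℕ) [NeZero M'] [NeZero q] (hcop : Nat.Coprime M' q)
    (K₁ : Type) [Field K₁] [Algebra ℚ K₁] [FiniteDimensional ℚ K₁]
    (N : ℕ) (hN : N = M' * (q * q)) :
    ∃ W : ModelField K₁ N ≃ₐ[K₁] ModelField K₁ N,
      (∀ z, W (W z) = z) ∧
      ∀ (a b : ℕ) (_ : NeZero a) (_ : NeZero b),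
        (∃ d e e' : ℕ, d ∣ M' ∧ e * e' = q * q ∧ a = d * e ∧ b = d * e') →
        ∀ z : ModelField K₁ N, (z : LaurentSeries K₁) = coeffEmb K₁ (qExpand ℚ a jq) →
          (W z : LaurentSeries K₁) = coeffEmb K₁ (qExpand ℚ b jq) := by
  subst hN
  have : Algebra.IsAlgebraic ℚ K₁ := Algebra.IsAlgebraic.of_finite ℚ K₁
  let ι : K₁ →+* QBar := (IsAlgClosed.lift : K₁ →ₐ[ℚ] QBar).toRingHom
  have hcop2 : Nat.Coprime M' (q * q) := Nat.Coprime.mul_right hcop hcop
  obtain ⟨W, hW, hinv⟩ := exists_atkinLehnerBar_explicit M' (q * q) hcop2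
  have hM0 : M' ≠ 0 := NeZero.ne M'
  have hq0 : q * q ≠ 0 := mul_ne_zero (NeZero.ne q) (NeZero.ne q)
  have hrat : ∀ w : ↥(modularFunctionFieldFull (M' * (q * q))),
      ∃ w' : ↥(modularFunctionFieldFull (M' * (q * q))),
        W (H62.SS.ratBar (modularFunctionFieldFull (M' * (q * q))) w)
          = H62.SS.ratBar (modularFunctionFieldFull (M' * (q * q))) w' := by
    refine H62.SS.rat_stable (modularFunctionFieldFull (M' * (q * q)))
      (divisorExpansions (M' * (q * q))) rfl W ?_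
    rintro x ⟨d', hd0, hd', rfl⟩ hxF
    obtain ⟨d, d₁, e, e', hN, hℓ, hde⟩ := H41.exists_dvd_decomp hcop2 hd'
    subst hde
    have hdN : d ∣ M' := ⟨d₁, hN⟩
    have he'0 : d * e' ≠ 0 := by
      intro h
      rcases Nat.mul_eq_zero.mp h with h | h
      · exact hM0 (by rw [hN, h, zero_mul])
      · exact hq0 (by rw [hℓ, h, mul_zero])
    have i2 : NeZero (d * e') := ⟨he'0⟩
    have h2 : d * e' ∣ M' * (q * q) := by
      rw [hN, hℓ]
      exact Nat.mul_dvd_mul (dvd_mul_right d d₁) (dvd_mul_left e' e)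
    refine ⟨⟨qExpand ℚ (d * e') jq, jqd_mem_full (M' * (q * q)) h2⟩, ?_⟩
    exact hW d e e' hd0 i2 hdN hℓ.symm hd' h2
  obtain ⟨W₁, hW₁⟩ :=
    H62.SS.exists_descent ι (modularFunctionFieldFull (M' * (q * q))) W hinv hrat
  have hbinj : Function.Injective (klBc ι (modularFunctionFieldFull (M' * (q * q)))) :=
    (klBc ι (modularFunctionFieldFull (M' * (q * q)))).injective
  refine ⟨W₁, fun z => ?_, ?_⟩
  · apply hbinj
    rw [hW₁, hW₁, hinv]
  · rintro a b ia ib ⟨d, e, e', hd, hee, rfl, rfl⟩ z hz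
    have h1 : d * e ∣ M' * (q * q) := by
      rw [← hee]
      exact Nat.mul_dvd_mul hd (dvd_mul_right e e')
    have h2 : d * e' ∣ M' * (q * q) := by
      rw [← hee]
      exact Nat.mul_dvd_mul hd (dvd_mul_left e' e)
    have hz' : z = H62.SS.ratK (modularFunctionFieldFull (M' * (q * q)))
        ⟨qExpand ℚ (d * e) jq, jqd_mem_full (M' * (q * q)) h1⟩ := Subtype.ext hz
    have h3 : W₁ z = H62.SS.ratK (modularFunctionFieldFull (M' * (q * q)))
        ⟨qExpand ℚ (d * e') jq, jqd_mem_full (M' * (q * q)) h2⟩ := by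
      apply hbinj
      rw [hW₁, hz', H62.SS.klBc_ratK, H62.SS.klBc_ratK]
      exact hW d e e' ia ib hd hee h1 h2
    rw [h3]
    rfl

/-- **P-SS2 row 1040 (SS2-C1-AL2)**: `W_{q²}` exists over every number field and is compatible
with any Atkin-Lehner automorphism `W_q` of level `M' q`. -/
theorem al2Exists (M' q : ℕ) [NeZero M'] [NeZero q] :
    Fermat.Agent.H86.SS2.AL2ExistsStatement M' q := by
  intro hcop K₁ _ _ _ Wq hWq
  obtain ⟨W, hinv, hW⟩ := exists_W2_level M' q hcop K₁ (M' * q * q) (Nat.mul_assoc M' q q)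
  have iMq : NeZero (M' * q) := ⟨mul_ne_zero (NeZero.ne M') (NeZero.ne q)⟩
  have iqq : NeZero (q * q) := ⟨mul_ne_zero (NeZero.ne q) (NeZero.ne q)⟩
  have iMqq : NeZero (M' * q * q) := ⟨mul_ne_zero (NeZero.ne (M' * q)) (NeZero.ne q)⟩
  have i1 : NeZero 1 := ⟨one_ne_zero⟩
  -- the two generators of level `M'`
  have hj1 : coeffEmb K₁ jq ∈ laurentBaseChange K₁ (modularFunctionFieldFull M') := by
    have h := jqd_mem_full M' (one_dvd M')
    rw [qExpand_one_apply] at h
    exact coeffEmb_mem_laurentBaseChange K₁ h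
  have hjM : coeffEmb K₁ (qExpand ℚ M' jq)
      ∈ laurentBaseChange K₁ (modularFunctionFieldFull M') :=
    coeffEmb_mem_laurentBaseChange K₁ (jqd_mem_full M' dvd_rfl)
  -- `Wq` on the two generators of level `M' q`
  have hWq1 : ∀ z : ModelField K₁ (M' * q), (z : LaurentSeries K₁) = coeffEmb K₁ jq →
      (Wq z : LaurentSeries K₁) = coeffEmb K₁ (qExpand ℚ q jq) := by
    intro z hz
    have hz' : z = heckeAlphaBar K₁ M' q ⟨coeffEmb K₁ jq, hj1⟩ := by
      apply Subtype.ext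
      rw [coe_heckeAlphaBar]
      exact hz
    rw [hz', hWq.1, coe_heckeBetaBar]
    exact qExpand_coeffEmb K₁ q jq
  have hWqM : ∀ z : ModelField K₁ (M' * q),
      (z : LaurentSeries K₁) = coeffEmb K₁ (qExpand ℚ (M' * q) jq) →
      (Wq z : LaurentSeries K₁) = coeffEmb K₁ (qExpand ℚ M' jq) := by
    intro z hz
    have hz' : z = heckeBetaBar K₁ M' q ⟨coeffEmb K₁ (qExpand ℚ M' jq), hjM⟩ := by
      apply Subtype.ext
      rw [coe_heckeBetaBar, hz]
      exact (H41.qExpand_coeffEmb_jq K₁ M' q).symm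
    rw [hz', hWq.2, coe_heckeAlphaBar]
  refine ⟨W, ⟨hWq, ?_, ?_, hinv⟩⟩
  · -- `W α = β Wq`
    refine ringHom_eq_of_gens (modularFunctionFieldFull (M' * q)) {jq, qExpand ℚ (M' * q) jq}
      (full_eq_adjoin_pair (M' * q))
      ((W : ModelField K₁ (M' * q * q) →+* ModelField K₁ (M' * q * q)).comp
        (heckeAlphaBar K₁ (M' * q) q).toRingHom)
      ((heckeBetaBar K₁ (M' * q) q).toRingHom.comp
        (Wq : ModelField K₁ (M' * q) →+* ModelField K₁ (M' * q)))
      (fun a => by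
        change W (heckeAlphaBar K₁ (M' * q) q (algebraMap K₁ _ a))
          = heckeBetaBar K₁ (M' * q) q (Wq (algebraMap K₁ _ a))
        rw [AlgHom.commutes, AlgEquiv.commutes, AlgEquiv.commutes, AlgHom.commutes]) ?_
    rintro x (rfl | rfl) z hz
    · apply Subtype.ext
      change (W (heckeAlphaBar K₁ (M' * q) q z) : LaurentSeries K₁)
        = (heckeBetaBar K₁ (M' * q) q (Wq z) : LaurentSeries K₁)
      rw [coe_heckeBetaBar, hWq1 z hz, qExpand_coeffEmb, qExpand_qExpand]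
      refine hW 1 (q * q) i1 iqq ⟨1, 1, q * q, one_dvd M', one_mul _, (one_mul 1).symm,
        (one_mul _).symm⟩ _ ?_
      rw [coe_heckeAlphaBar, hz, qExpand_one_apply]
    · apply Subtype.ext
      change (W (heckeAlphaBar K₁ (M' * q) q z) : LaurentSeries K₁)
        = (heckeBetaBar K₁ (M' * q) q (Wq z) : LaurentSeries K₁)
      rw [coe_heckeBetaBar, hWqM z hz, H41.qExpand_coeffEmb_jq K₁ M' q]
      refine hW (M' * q) (M' * q) iMq iMq ⟨M', q, q, dvd_rfl, rfl, rfl, rfl⟩ _ ?_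
      rw [coe_heckeAlphaBar, hz]
  · -- `W β = α Wq`
    refine ringHom_eq_of_gens (modularFunctionFieldFull (M' * q)) {jq, qExpand ℚ (M' * q) jq}
      (full_eq_adjoin_pair (M' * q))
      ((W : ModelField K₁ (M' * q * q) →+* ModelField K₁ (M' * q * q)).comp
        (heckeBetaBar K₁ (M' * q) q).toRingHom)
      ((heckeAlphaBar K₁ (M' * q) q).toRingHom.comp
        (Wq : ModelField K₁ (M' * q) →+* ModelField K₁ (M' * q)))
      (fun a => by
        change W (heckeBetaBar K₁ (M' * q) q (algebraMap K₁ _ a))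
          = heckeAlphaBar K₁ (M' * q) q (Wq (algebraMap K₁ _ a))
        rw [AlgHom.commutes, AlgEquiv.commutes, AlgEquiv.commutes, AlgHom.commutes]) ?_
    rintro x (rfl | rfl) z hz
    · apply Subtype.ext
      change (W (heckeBetaBar K₁ (M' * q) q z) : LaurentSeries K₁)
        = (heckeAlphaBar K₁ (M' * q) q (Wq z) : LaurentSeries K₁)
      rw [coe_heckeAlphaBar, hWq1 z hz]
      refine hW q q inferInstance inferInstance ⟨1, q, q, one_dvd M', rfl, (one_mul q).symm,
        (one_mul q).symm⟩ _ ?_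
      rw [coe_heckeBetaBar, hz]
      exact qExpand_coeffEmb K₁ q jq
    · apply Subtype.ext
      change (W (heckeBetaBar K₁ (M' * q) q z) : LaurentSeries K₁)
        = (heckeAlphaBar K₁ (M' * q) q (Wq z) : LaurentSeries K₁)
      rw [coe_heckeAlphaBar, hWqM z hz]
      refine hW (M' * q * q) M' iMqq inferInstance ⟨M', q * q, 1, dvd_rfl, mul_one _,
        (mul_assoc M' q q), (mul_one M').symm⟩ _ ?_
      rw [coe_heckeBetaBar, hz]
      exact H41.qExpand_coeffEmb_jq K₁ (M' * q) q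

end Fermat.Agent.H79.SS2
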