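import Fermat.Agent.H79.SS2.AL2

/-!
# P-SS2: existence of a compatible pair `(W_q, W_{q²})` over a number field (helper79)

`exists_al2_pair` : for coprime `M'`, `q` and a number field `K₁` there are `Wq`, `W` with
`IsAL2 K₁ M' q Wq W` (helper62's `modelAtkinLehnerExists` for `Wq`, row 1040 for `W`).
-/

set_option autoImplicit false

noncomputable section

namespace Fermat.Agent.H79.SS2

open Fermat.Agent.H22.KL Fermat.Agent.H82.SS

/-- A compatible pair `(W_q, W_{q²})` exists over every number field. -/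
theorem exists_al2_pair (M' q : ℕ) [NeZero M'] [NeZero q] (hcop : Nat.Coprime M' q)
    (K₁ : Type) [Field K₁] [Algebra ℚ K₁] [FiniteDimensional ℚ K₁] :
    ∃ (Wq : ModelField K₁ (M' * q) ≃ₐ[K₁] ModelField K₁ (M' * q))
      (W : ModelField K₁ (M' * q * q) ≃ₐ[K₁] ModelField K₁ (M' * q * q)),
      Fermat.Agent.H86.SS2.IsAL2 K₁ M' q Wq W := by
  obtain ⟨Wq, hWq⟩ := Fermat.Agent.H62.SS.modelAtkinLehnerExists M' q hcop K₁
  obtain ⟨W, hW⟩ := al2Exists M' q hcop K₁ Wq hWq
  exact ⟨Wq, W, hW⟩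

end Fermat.Agent.H79.SS2
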